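/-
S16-D1 (helper19): the coefficient polynomials `P_n ∈ ℤ[X_ℓ]`: `a₁(P_n(T) g) = a_n(g)` for every
cusp form `g` of weight 2 on `Γ₀(p)` and `ev P_n = σ'(n)`.
-/
import Fermat.Agent.S16.Defs
import Fermat.Prelude.Sol.S_CuspForm_intLattice_fg
import Fermat.Prelude.Thm_ModularFormClass_qCoeff_heckeT
import Fermat.Prelude.Thm_ModularFormClass_qCoeff_heckeU

set_option autoImplicit false

open ModularCurve CuspForm
open UpperHalfPlane hiding I
open P2MW.S_CuspForm_intLattice_fg.W3WsD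

namespace Fermat.Agent.S16

/-! ### arithmetic of `σ'` -/

theorem s16coeff_sigma_one (p : ℕ) [Fact p.Prime] : s16Sigma p 1 = 1 := by
  have hp : ¬ p ∣ 1 := (Fact.out : p.Prime).one_lt.ne' ∘ Nat.dvd_one.1
  unfold s16Sigma
  rw [Nat.divisors_one, Finset.filter_singleton, if_pos hp, Finset.sum_singleton]

theorem s16coeff_sigma_p (p m : ℕ) [Fact p.Prime] (hm : m ≠ 0) :
    s16Sigma p (p * m) = s16Sigma p m := by
  have hp : p.Prime := Fact.out
  unfold s16Sigma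
  apply Finset.sum_congr _ (fun _ _ => rfl)
  ext e
  simp only [Finset.mem_filter, Nat.mem_divisors]
  constructor
  · rintro ⟨⟨h1, -⟩, h2⟩
    refine ⟨⟨?_, hm⟩, h2⟩
    have hc : Nat.Coprime e p := ((Nat.Prime.coprime_iff_not_dvd hp).2 h2).symm
    exact hc.dvd_of_dvd_mul_left h1
  · rintro ⟨⟨h1, -⟩, h2⟩
    exact ⟨⟨h1.mul_left p, mul_ne_zero hp.ne_zero hm⟩, h2⟩

theorem s16coeff_sigma_l (p ℓ m : ℕ) [Fact p.Prime] (hℓ : ℓ.Prime) (hℓp : ℓ ≠ p) (hm : m ≠ 0) :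
    s16Sigma p (ℓ * m) + (if ℓ ∣ m then ℓ * s16Sigma p (m / ℓ) else 0) =
      (1 + ℓ) * s16Sigma p m := by
  classical
  have hp : p.Prime := Fact.out
  have hpl : ∀ e : ℕ, p ∣ ℓ * e ↔ p ∣ e := by
    intro e
    constructor
    · intro h
      rcases (Nat.Prime.dvd_mul hp).1 h with h1 | h1
      · exact absurd ((Nat.prime_dvd_prime_iff_eq hp hℓ).1 h1).symm hℓp
      · exact h1
    · intro h
      exact h.mul_left ℓ
  set A := (m.divisors).filter (fun e => ¬ p ∣ e) with hA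
  set B := A.image (fun e => ℓ * e) with hB
  have hinj : Function.Injective (fun e : ℕ => ℓ * e) :=
    fun a b h => Nat.eq_of_mul_eq_mul_left hℓ.pos h
  have hsumB : ∑ e ∈ B, e = ℓ * ∑ e ∈ A, e := by
    rw [hB, Finset.sum_image (fun a _ b _ h => hinj h), Finset.mul_sum]
  have hunion : ((ℓ * m).divisors).filter (fun e => ¬ p ∣ e) = A ∪ B := by
    ext e
    simp only [hA, hB, Finset.mem_filter, Nat.mem_divisors, Finset.mem_union, Finset.mem_image]
    constructor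
    · rintro ⟨⟨h1, -⟩, h2⟩
      by_cases hle : ℓ ∣ e
      · right
        obtain ⟨e', rfl⟩ := hle
        refine ⟨e', ⟨⟨?_, hm⟩, ?_⟩, rfl⟩
        · exact Nat.dvd_of_mul_dvd_mul_left hℓ.pos h1
        · exact fun h => h2 ((hpl e').2 h)
      · left
        have hc : Nat.Coprime e ℓ := ((Nat.Prime.coprime_iff_not_dvd hℓ).2 hle).symm
        exact ⟨⟨hc.dvd_of_dvd_mul_left h1, hm⟩, h2⟩
    · rintro (⟨⟨h1, -⟩, h2⟩ | ⟨e', ⟨⟨h1, -⟩, h2⟩, rfl⟩)
      · exact ⟨⟨h1.mul_left ℓ, mul_ne_zero hℓ.ne_zero hm⟩, h2⟩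
      · exact ⟨⟨Nat.mul_dvd_mul_left ℓ h1, mul_ne_zero hℓ.ne_zero hm⟩,
          fun h => h2 ((hpl e').1 h)⟩
  have hinter : ∑ e ∈ A ∩ B, e = if ℓ ∣ m then ℓ * s16Sigma p (m / ℓ) else 0 := by
    split_ifs with hlm
    · obtain ⟨m', rfl⟩ := hlm
      have hm' : m' ≠ 0 := fun h => hm (by rw [h, mul_zero])
      rw [Nat.mul_div_cancel_left _ hℓ.pos]
      have : A ∩ B = ((m'.divisors).filter (fun e => ¬ p ∣ e)).image (fun e => ℓ * e) := by
        ext e
        simp only [hA, hB, Finset.mem_inter, Finset.mem_filter, Nat.mem_divisors,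
          Finset.mem_image]
        constructor
        · rintro ⟨⟨⟨h1, -⟩, h2⟩, ⟨e', ⟨⟨h3, -⟩, h4⟩, rfl⟩⟩
          exact ⟨e', ⟨⟨Nat.dvd_of_mul_dvd_mul_left hℓ.pos h1, hm'⟩, h4⟩, rfl⟩
        · rintro ⟨e', ⟨⟨h1, -⟩, h2⟩, rfl⟩
          refine ⟨⟨⟨Nat.mul_dvd_mul_left ℓ h1, hm⟩, fun h => h2 ((hpl e').1 h)⟩,
            ⟨e', ⟨⟨h1.mul_left ℓ, hm⟩, h2⟩, rfl⟩⟩
      rw [this, Finset.sum_image (fun a _ b _ h => hinj h), ← Finset.mul_sum]
      rfl
    · have : A ∩ B = ∅ := by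
        ext e
        simp only [hA, hB, Finset.mem_inter, Finset.mem_filter, Nat.mem_divisors,
          Finset.mem_image, Finset.notMem_empty, iff_false]
        rintro ⟨⟨⟨h1, -⟩, -⟩, ⟨e', -, rfl⟩⟩
        exact hlm ((dvd_mul_right ℓ e').trans h1)
      rw [this, Finset.sum_empty]
  have h := Finset.sum_union_inter (s₁ := A) (s₂ := B) (f := fun e => e)
  rw [hsumB, hinter, ← hunion] at h
  show ∑ e ∈ ((ℓ * m).divisors).filter (fun e => ¬ p ∣ e), e + _ = _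
  rw [h]
  show _ = (1 + ℓ) * ∑ e ∈ A, e
  ring

/-! ### the action of `ℤ[X_ℓ]` on cusp forms -/

section act

variable (p : ℕ) [Fact p.Prime]

/-- the operator `P(T)` on `S₂(Γ₀(p))` -/
noncomputable def s16coeffAct (P : HeckeAlg) :
    Module.End ℂ (CuspForm (CongruenceSubgroup.Gamma0 p) 2) :=
  ((heckeEvalForms p 2 P : ↥(heckeAlgebra p 2 ∅)) :
    Module.End ℂ (CuspForm (CongruenceSubgroup.Gamma0 p) 2))

theorem s16coeffAct_one (g : CuspForm (CongruenceSubgroup.Gamma0 p) 2) :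
    s16coeffAct p 1 g = g := by
  unfold s16coeffAct
  rw [map_one]
  rfl

theorem s16coeffAct_mul (P Q : HeckeAlg) (g : CuspForm (CongruenceSubgroup.Gamma0 p) 2) :
    s16coeffAct p (P * Q) g = s16coeffAct p P (s16coeffAct p Q g) := by
  unfold s16coeffAct
  rw [map_mul]
  rfl

theorem s16coeffAct_sub (P Q : HeckeAlg) (g : CuspForm (CongruenceSubgroup.Gamma0 p) 2) :
    s16coeffAct p (P - Q) g = s16coeffAct p P g - s16coeffAct p Q g := by
  unfold s16coeffAct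
  rw [map_sub]
  rfl

theorem s16coeffAct_C (a : ℤ) (g : CuspForm (CongruenceSubgroup.Gamma0 p) 2) :
    s16coeffAct p (MvPolynomial.C a) g = a • g := by
  unfold s16coeffAct
  rw [heckeEvalForms_C]
  simp

theorem s16coeffAct_X_self :
    s16coeffAct p (heckeGen ⟨p, Fact.out⟩) = heckeULin 2 (dvd_refl p) := by
  unfold s16coeffAct
  rw [heckeEvalForms_heckeGen_of_dvd (q := ⟨p, Fact.out⟩) (dvd_refl p)]
  rfl

theorem s16coeffAct_X_of_ne {ℓ : ℕ} (hℓ : ℓ.Prime) (hℓp : ¬ ℓ ∣ p) :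
    s16coeffAct p (heckeGen ⟨ℓ, hℓ⟩) = heckeTLin 2 hℓ hℓp := by
  unfold s16coeffAct
  rw [heckeEvalForms_heckeGen_of_not_dvd (ℓ := ⟨ℓ, hℓ⟩) hℓp]
  rfl

theorem s16coeff_qCoeff_U (g : CuspForm (CongruenceSubgroup.Gamma0 p) 2) (n : ℕ) :
    ModularFormClass.qCoeff (heckeULin 2 (dvd_refl p) g) n =
      ModularFormClass.qCoeff g (n * p) := by
  rw [coe_heckeULin_apply, ModularFormClass.qCoeff_heckeU g (hΓ p)
    (Fact.out : p.Prime).ne_zero n, ModularForm.coeffHeckeU_apply]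

omit [Fact p.Prime] in
theorem s16coeff_qCoeff_T {ℓ : ℕ} (hℓ : ℓ.Prime) (hℓp : ¬ ℓ ∣ p)
    (g : CuspForm (CongruenceSubgroup.Gamma0 p) 2) (n : ℕ) :
    ModularFormClass.qCoeff (heckeTLin 2 hℓ hℓp g) n =
      ModularFormClass.qCoeff g (n * ℓ) +
        if ℓ ∣ n then (ℓ : ℂ) * ModularFormClass.qCoeff g (n / ℓ) else 0 := by
  rw [coe_heckeTLin_apply, ModularFormClass.qCoeff_heckeT g (hΓ p) hℓ.ne_zero n,
    ModularForm.coeffHeckeT_apply]
  norm_num

omit [Fact p.Prime] in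
theorem s16coeff_qCoeff_sub (g h : CuspForm (CongruenceSubgroup.Gamma0 p) 2) (n : ℕ) :
    ModularFormClass.qCoeff (g - h : CuspForm (CongruenceSubgroup.Gamma0 p) 2) n =
      ModularFormClass.qCoeff g n - ModularFormClass.qCoeff h n := by
  have h1 : g - h = g + (-1 : ℤ) • h := by
    rw [neg_one_zsmul, sub_eq_add_neg]
  rw [h1, qCoeff_add, qCoeff_zsmul]
  push_cast
  ring

theorem s16Ev_heckeGen_self : s16Ev p (heckeGen ⟨p, Fact.out⟩) = 1 := by
  show MvPolynomial.aeval (eisensteinSystem p) (heckeGen ⟨p, Fact.out⟩) = 1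
  rw [aeval_heckeGen]
  unfold eisensteinSystem
  rw [if_pos (dvd_refl p)]

omit [Fact p.Prime] in
theorem s16Ev_heckeGen_of_ne {ℓ : ℕ} (hℓ : ℓ.Prime) (hℓp : ¬ ℓ ∣ p) :
    s16Ev p (heckeGen ⟨ℓ, hℓ⟩) = 1 + (ℓ : ℤ) := by
  show MvPolynomial.aeval (eisensteinSystem p) (heckeGen ⟨ℓ, hℓ⟩) = 1 + (ℓ : ℤ)
  rw [aeval_heckeGen]
  unfold eisensteinSystem
  rw [if_neg hℓp]

omit [Fact p.Prime] in
theorem s16Ev_C (a : ℤ) : s16Ev p (MvPolynomial.C a) = a := by
  show MvPolynomial.aeval (eisensteinSystem p) (MvPolynomial.C a) = a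
  rw [MvPolynomial.aeval_C]
  rfl

/-- the coefficient polynomials, acting on all cusp forms -/
theorem s16coeff_main (n : ℕ) (hn : 1 ≤ n) :
    ∃ P : HeckeAlg, s16Ev p P = (s16Sigma p n : ℤ) ∧
      ∀ g : CuspForm (CongruenceSubgroup.Gamma0 p) 2,
        ModularFormClass.qCoeff (s16coeffAct p P g) 1 = ModularFormClass.qCoeff g n := by
  have hp : p.Prime := Fact.out
  induction n using Nat.strong_induction_on with
  | _ n ih =>
  by_cases hn1 : n = 1
  · subst hn1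
    refine ⟨1, ?_, fun g => ?_⟩
    · rw [map_one, s16coeff_sigma_one]
      rfl
    · rw [s16coeffAct_one]
  · have hℓ : (n.minFac).Prime := Nat.minFac_prime hn1
    set ℓ := n.minFac with hℓdef
    obtain ⟨m, hm⟩ : ℓ ∣ n := Nat.minFac_dvd n
    have hm0 : m ≠ 0 := by
      rintro rfl
      omega
    have hm1 : 1 ≤ m := Nat.one_le_iff_ne_zero.2 hm0
    have hmn : m < n := by
      rw [hm]
      have := hℓ.two_le
      nlinarith
    obtain ⟨Pm, hPm_ev, hPm⟩ := ih m hmn hm1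
    by_cases hℓp : ℓ ∣ p
    · -- `ℓ = p`
      have hℓeq : ℓ = p := (Nat.prime_dvd_prime_iff_eq hℓ hp).1 hℓp
      refine ⟨Pm * heckeGen ⟨p, Fact.out⟩, ?_, fun g => ?_⟩
      · rw [map_mul, hPm_ev, s16Ev_heckeGen_self, mul_one, hm, hℓeq, s16coeff_sigma_p p m hm0]
      · rw [s16coeffAct_mul, hPm, s16coeffAct_X_self, s16coeff_qCoeff_U, hm, hℓeq, mul_comm]
    · have hℓne : ℓ ≠ p := fun h => hℓp (h ▸ dvd_refl _)
      have hsig := s16coeff_sigma_l p ℓ m hℓ hℓne hm0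
      by_cases hlm : ℓ ∣ m
      · -- `ℓ ∣ m`
        obtain ⟨m', hm'⟩ := hlm
        have hm'0 : m' ≠ 0 := by
          rintro rfl
          omega
        have hm'n : m' < n := by
          have := hℓ.two_le
          have : m' < m := by
            rw [hm']
            nlinarith [Nat.pos_of_ne_zero hm'0]
          omega
        obtain ⟨Pm', hPm'_ev, hPm'⟩ := ih m' hm'n (Nat.one_le_iff_ne_zero.2 hm'0)
        have hdiv : m / ℓ = m' := by
          rw [hm', Nat.mul_div_cancel_left _ hℓ.pos]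
        rw [if_pos ⟨m', hm'⟩, hdiv] at hsig
        refine ⟨Pm * heckeGen ⟨ℓ, hℓ⟩ - MvPolynomial.C (ℓ : ℤ) * Pm', ?_, fun g => ?_⟩
        · rw [map_sub, map_mul, map_mul, hPm_ev, hPm'_ev, s16Ev_heckeGen_of_ne p hℓ hℓp,
            s16Ev_C, hm]
          have : ((s16Sigma p (ℓ * m) : ℕ) : ℤ) + (ℓ : ℤ) * (s16Sigma p m' : ℤ) =
              (1 + (ℓ : ℤ)) * (s16Sigma p m : ℤ) := by exact_mod_cast hsig
          linarith
        · rw [s16coeffAct_sub, s16coeff_qCoeff_sub, s16coeffAct_mul, hPm,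
            s16coeffAct_X_of_ne p hℓ hℓp, s16coeff_qCoeff_T, s16coeffAct_mul, s16coeffAct_C,
            qCoeff_zsmul, hPm', if_pos ⟨m', hm'⟩, hdiv, hm, mul_comm m ℓ]
          push_cast
          ring
      · rw [if_neg hlm, add_zero] at hsig
        refine ⟨Pm * heckeGen ⟨ℓ, hℓ⟩, ?_, fun g => ?_⟩
        · rw [map_mul, hPm_ev, s16Ev_heckeGen_of_ne p hℓ hℓp, hm, hsig]
          push_cast
          ring
        · rw [s16coeffAct_mul, hPm, s16coeffAct_X_of_ne p hℓ hℓp, s16coeff_qCoeff_T,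
            if_neg hlm, add_zero, hm, mul_comm]

/-- **D1**. -/
theorem s16_exists_coeff_poly (n : ℕ) (hn : 1 ≤ n) :
    ∃ P : HeckeAlg, s16Ev p P = (s16Sigma p n : ℤ) ∧
      ∀ f : ↥(intLattice p 2),
        ModularFormClass.qCoeff
          ((((s16Phi p P : ↥(heckeLatticeAlgebra p ∅)) : Module.End ℤ ↥(intLattice p 2)) f :
            ↥(intLattice p 2)) : CuspForm (CongruenceSubgroup.Gamma0 p) 2) 1 =
        ModularFormClass.qCoeff (f : CuspForm (CongruenceSubgroup.Gamma0 p) 2) n := by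
  obtain ⟨P, hP1, hP2⟩ := s16coeff_main p n hn
  exact ⟨P, hP1, fun f => hP2 (f : CuspForm (CongruenceSubgroup.Gamma0 p) 2)⟩

end act

end Fermat.Agent.S16
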