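/-
S16-D3 (helper19): the duality statement D from D1 (coefficient polynomials) and D2 (perfect
pairing), both as hypotheses.
-/
import Fermat.Agent.S16.Defs

set_option autoImplicit false

open ModularCurve CuspForm

namespace Fermat.Agent.S16

/-- an additive lift to `ℤ` of a map `𝕋 → ZMod d` (`𝕋` is a free `ℤ`-module) -/
theorem s16dual_exists_lift (p : ℕ) [Fact p.Prime] (d : ℕ)
    (χ : ↥(heckeLatticeAlgebra p ∅) →+ ZMod d) :
    ∃ lam : ↥(heckeLatticeAlgebra p ∅) →+ ℤ, ∀ t, ((lam t : ℤ) : ZMod d) = χ t := by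
  have hsurj : Function.Surjective ((Int.castAddHom (ZMod d)).toIntLinearMap) :=
    ZMod.intCast_surjective
  obtain ⟨h, hh⟩ := Module.projective_lifting_property
    ((Int.castAddHom (ZMod d)).toIntLinearMap) χ.toIntLinearMap hsurj
  refine ⟨h.toAddMonoidHom, fun t => ?_⟩
  exact LinearMap.congr_fun hh t

/-- **D** from D1 + D2. -/
theorem s16_duality_of (p : ℕ) [Fact p.Prime]
    (hD1 : ∀ n : ℕ, 1 ≤ n → ∃ P : HeckeAlg, s16Ev p P = (s16Sigma p n : ℤ) ∧
      ∀ f : ↥(intLattice p 2),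
        ModularFormClass.qCoeff
          ((((s16Phi p P : ↥(heckeLatticeAlgebra p ∅)) : Module.End ℤ ↥(intLattice p 2)) f :
            ↥(intLattice p 2)) : CuspForm (CongruenceSubgroup.Gamma0 p) 2) 1 =
        ModularFormClass.qCoeff (f : CuspForm (CongruenceSubgroup.Gamma0 p) 2) n)
    (hD2 : ∀ lam : ↥(heckeLatticeAlgebra p ∅) →+ ℤ,
      ∃ f : ↥(intLattice p 2), ∀ t : ↥(heckeLatticeAlgebra p ∅),
        ModularFormClass.qCoeff
          (((t : Module.End ℤ ↥(intLattice p 2)) f : ↥(intLattice p 2)) :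
            CuspForm (CongruenceSubgroup.Gamma0 p) 2) 1 = ((lam t : ℤ) : ℂ))
    (d : ℕ) (χ : ↥(heckeLatticeAlgebra p ∅) →+* ZMod d)
    (hχ : ∀ P : HeckeAlg, χ (s16Phi p P) = ((s16Ev p P : ℤ) : ZMod d)) :
    ∃ f : CuspForm (CongruenceSubgroup.Gamma0 p) 2, S16Cong p d f := by
  obtain ⟨lam, hlam⟩ := s16dual_exists_lift p d χ.toAddMonoidHom
  obtain ⟨f, hf⟩ := hD2 lam
  refine ⟨(f : CuspForm (CongruenceSubgroup.Gamma0 p) 2), fun n hn => ?_⟩
  obtain ⟨P, hPev, hPf⟩ := hD1 n hn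
  refine ⟨lam (s16Phi p P), ?_, ?_⟩
  · rw [← hPf f, hf]
  · rw [hlam]
    show χ (s16Phi p P) = _
    rw [hχ, hPev]
    simp

end Fermat.Agent.S16
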