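/-
S16-D2 (helper19): the pairing `(t, f) ↦ a₁(t f)` identifies `S₂(ℤ)` with `Hom(𝕋, ℤ)`
(surjectivity), with D1 (existence of `T_n`) as a hypothesis.
-/
import Fermat.Agent.S16.Defs
import Fermat.Prelude.Sol.S_CuspForm_intLattice_fg

set_option autoImplicit false

open ModularCurve CuspForm
open UpperHalfPlane hiding I
open P2MW.S_CuspForm_intLattice_fg.W3WsD

namespace Fermat.Agent.S16

/-! ### abstract duality -/

section abstract

variable {L : Type*} [AddCommGroup L] [Module.Free ℤ L] [Module.Finite ℤ L]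
  (𝕋 : Subalgebra ℤ (Module.End ℤ L)) [Module.Free ℤ ↥𝕋] [Module.Finite ℤ ↥𝕋]

/-- the pairing `(f, t) ↦ a (t f)` -/
noncomputable def s16perfPsi (a : L →ₗ[ℤ] ℤ) : L →ₗ[ℤ] (↥𝕋 →ₗ[ℤ] ℤ) :=
  LinearMap.mk₂ ℤ (fun (f : L) (t : ↥𝕋) => a ((t : Module.End ℤ L) f))
    (fun f g t => by simp)
    (fun c f t => by simp)
    (fun f s t => by simp)
    (fun c f t => by simp)

omit [Module.Free ℤ L] [Module.Finite ℤ L] [Module.Free ℤ ↥𝕋] [Module.Finite ℤ ↥𝕋] in
@[simp] theorem s16perfPsi_apply (a : L →ₗ[ℤ] ℤ) (f : L) (t : ↥𝕋) :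
    s16perfPsi 𝕋 a f t = a ((t : Module.End ℤ L) f) := rfl

theorem s16perf_abstract (hcomm : ∀ s t : ↥𝕋, s * t = t * s) {ι : Type*}
    (a : L →ₗ[ℤ] ℤ) (an : ι → L →ₗ[ℤ] ℤ)
    (H1 : ∀ n, ∃ t : ↥𝕋, ∀ f, a ((t : Module.End ℤ L) f) = an n f)
    (H2 : ∀ f, (∀ n, an n f = 0) → f = 0)
    (H3 : ∀ (m : ℤ) (g : L), m ≠ 0 → (∀ n, m ∣ an n g) → ∃ g', m • g' = g)
    (lam : ↥𝕋 →ₗ[ℤ] ℤ) :
    ∃ f : L, ∀ t : ↥𝕋, a ((t : Module.End ℤ L) f) = lam t := by
  set Ψ := s16perfPsi 𝕋 a with hΨ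
  have hΨinj : Function.Injective Ψ := by
    rw [injective_iff_map_eq_zero]
    intro f hf
    apply H2
    intro n
    obtain ⟨t, ht⟩ := H1 n
    rw [← ht f]
    exact LinearMap.congr_fun hf t
  have hΘinj : Function.Injective Ψ.flip := by
    rw [injective_iff_map_eq_zero]
    intro t ht
    apply Subtype.ext
    apply LinearMap.ext
    intro f
    show (t : Module.End ℤ L) f = 0
    apply H2
    intro n
    obtain ⟨s, hs⟩ := H1 n
    rw [← hs]
    have h1 : (s : Module.End ℤ L) ((t : Module.End ℤ L) f) =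
        (t : Module.End ℤ L) ((s : Module.End ℤ L) f) := by
      have h2 := congrArg (fun u : ↥𝕋 => (u : Module.End ℤ L) f) (hcomm s t)
      simpa using h2
    rw [h1]
    exact LinearMap.congr_fun ht ((s : Module.End ℤ L) f)
  have hr1 : Module.finrank ℤ L ≤ Module.finrank ℤ ↥𝕋 := by
    have := LinearMap.finrank_le_finrank_of_injective hΨinj
    rwa [Module.finrank_linearMap_self] at this
  have hr2 : Module.finrank ℤ ↥𝕋 ≤ Module.finrank ℤ L := by
    have := LinearMap.finrank_le_finrank_of_injective hΘinj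
    rwa [Module.finrank_linearMap_self] at this
  have hrange : Module.finrank ℤ ↥(LinearMap.range Ψ) = Module.finrank ℤ (↥𝕋 →ₗ[ℤ] ℤ) := by
    rw [LinearMap.finrank_range_of_inj hΨinj, Module.finrank_linearMap_self]
    exact le_antisymm hr1 hr2
  have hquot : Module.finrank ℤ ((↥𝕋 →ₗ[ℤ] ℤ) ⧸ LinearMap.range Ψ) = 0 := by
    have := (LinearMap.range Ψ).finrank_quotient_add_finrank
    omega
  have htors := (Module.finrank_eq_zero_iff_isTorsion).1 hquot
  obtain ⟨⟨m, hm⟩, hml⟩ := @htors (Submodule.Quotient.mk lam)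
  have hm0 : m ≠ 0 := nonZeroDivisors.ne_zero hm
  have hmem : m • lam ∈ LinearMap.range Ψ := by
    rw [← Submodule.Quotient.mk_eq_zero, Submodule.Quotient.mk_smul]
    exact hml
  obtain ⟨g, hg⟩ := hmem
  obtain ⟨g', hg'⟩ := H3 m g hm0 (fun n => by
    obtain ⟨t, ht⟩ := H1 n
    rw [← ht g]
    have := LinearMap.congr_fun hg t
    rw [hΨ, s16perfPsi_apply] at this
    rw [this]
    exact ⟨lam t, by simp⟩)
  refine ⟨g', fun t => ?_⟩
  have h1 := LinearMap.congr_fun hg t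
  rw [hΨ, s16perfPsi_apply, ← hg', map_smul, map_smul] at h1
  simp only [LinearMap.smul_apply, smul_eq_mul] at h1
  exact mul_left_cancel₀ hm0 h1

end abstract

/-! ### the integral `q`-coefficient functionals -/

/-- the `n`-th `q`-coefficient as a linear functional `S₂(ℤ) → ℤ` -/
noncomputable def s16perfCoeff (N : ℕ) (n : ℕ) : ↥(intLattice N 2) →ₗ[ℤ] ℤ where
  toFun f := Classical.choose ((mem_intLattice_iff f.1).1 f.2 n)
  map_add' f g := by
    apply Int.cast_injective (α := ℂ)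
    rw [← Classical.choose_spec ((mem_intLattice_iff (f + g).1).1 (f + g).2 n)]
    push_cast
    rw [← Classical.choose_spec ((mem_intLattice_iff f.1).1 f.2 n),
      ← Classical.choose_spec ((mem_intLattice_iff g.1).1 g.2 n)]
    exact qCoeff_add f.1 g.1 n
  map_smul' c f := by
    apply Int.cast_injective (α := ℂ)
    rw [← Classical.choose_spec ((mem_intLattice_iff (c • f).1).1 (c • f).2 n)]
    simp only [RingHom.id_apply, smul_eq_mul]
    push_cast
    rw [← Classical.choose_spec ((mem_intLattice_iff f.1).1 f.2 n)]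
    exact qCoeff_zsmul c f.1 n

theorem s16perfCoeff_spec (N : ℕ) (n : ℕ) (f : ↥(intLattice N 2)) :
    ModularFormClass.qCoeff (f : CuspForm (CongruenceSubgroup.Gamma0 N) 2) n =
      ((s16perfCoeff N n f : ℤ) : ℂ) :=
  Classical.choose_spec ((mem_intLattice_iff f.1).1 f.2 n)

theorem s16perf_qCoeff_zero (N : ℕ) (f : CuspForm (CongruenceSubgroup.Gamma0 N) 2) :
    ModularFormClass.qCoeff f 0 = 0 :=
  CuspFormClass.qExpansion_coeff_zero f one_pos (hΓ N)

theorem s16perf_eq_zero (N : ℕ) [NeZero N] (f : ↥(intLattice N 2))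
    (h : ∀ n : ℕ, s16perfCoeff N (n + 1) f = 0) : f = 0 := by
  apply Subtype.ext
  apply trunc_injective N 2
  rw [Submodule.coe_zero, map_zero]
  funext i
  show ModularFormClass.qCoeff (f : CuspForm (CongruenceSubgroup.Gamma0 N) 2) i = 0
  rcases Nat.eq_zero_or_pos (i : ℕ) with h0 | h0
  · rw [h0]
    exact s16perf_qCoeff_zero N _
  · obtain ⟨k, hk⟩ := Nat.exists_eq_succ_of_ne_zero (Nat.pos_iff_ne_zero.1 h0)
    rw [hk, s16perfCoeff_spec, h k]
    simp

theorem s16perf_qCoeff_smul (N : ℕ) (c : ℂ) (f : CuspForm (CongruenceSubgroup.Gamma0 N) 2)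
    (n : ℕ) : ModularFormClass.qCoeff (c • f : CuspForm (CongruenceSubgroup.Gamma0 N) 2) n =
      c * ModularFormClass.qCoeff f n := by
  have h1 : ⇑(c • f) = c • ⇑f := by
    ext z
    simp
  unfold ModularFormClass.qCoeff
  rw [h1, ModularForm.qExpansion_smul one_pos (hΓ N) c f]
  simp

theorem s16perf_saturated (N : ℕ) (m : ℤ) (g : ↥(intLattice N 2)) (hm : m ≠ 0)
    (h : ∀ n : ℕ, m ∣ s16perfCoeff N (n + 1) g) : ∃ g' : ↥(intLattice N 2), m • g' = g := by
  have hmC : (m : ℂ) ≠ 0 := Int.cast_ne_zero.2 hm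
  refine ⟨⟨((m : ℂ)⁻¹ • (g : CuspForm (CongruenceSubgroup.Gamma0 N) 2)), ?_⟩, ?_⟩
  · rw [mem_intLattice_iff]
    intro n
    rcases Nat.eq_zero_or_pos n with h0 | h0
    · exact ⟨0, by rw [h0, s16perf_qCoeff_zero]; simp⟩
    · obtain ⟨k, hk⟩ := Nat.exists_eq_succ_of_ne_zero (Nat.pos_iff_ne_zero.1 h0)
      obtain ⟨u, hu⟩ := h k
      refine ⟨u, ?_⟩
      rw [s16perf_qCoeff_smul, hk, s16perfCoeff_spec, hu]
      push_cast
      field_simp
  · apply Subtype.ext
    show m • ((m : ℂ)⁻¹ • (g : CuspForm (CongruenceSubgroup.Gamma0 N) 2)) = g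
    rw [← Int.cast_smul_eq_zsmul ℂ, smul_smul, mul_inv_cancel₀ hmC, one_smul]

/-! ### D2 -/

/-- **D2** with (the weak form of) D1 as a hypothesis. -/
theorem s16_perfect_of (N : ℕ) [NeZero N] (S : Set ℕ)
    (hD1 : ∀ n : ℕ, 1 ≤ n → ∃ t : ↥(heckeLatticeAlgebra N S), ∀ f : ↥(intLattice N 2),
      ModularFormClass.qCoeff
        (((t : Module.End ℤ ↥(intLattice N 2)) f : ↥(intLattice N 2)) :
          CuspForm (CongruenceSubgroup.Gamma0 N) 2) 1 =
      ModularFormClass.qCoeff (f : CuspForm (CongruenceSubgroup.Gamma0 N) 2) n)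
    (lam : ↥(heckeLatticeAlgebra N S) →+ ℤ) :
    ∃ f : ↥(intLattice N 2), ∀ t : ↥(heckeLatticeAlgebra N S),
      ModularFormClass.qCoeff
        (((t : Module.End ℤ ↥(intLattice N 2)) f : ↥(intLattice N 2)) :
          CuspForm (CongruenceSubgroup.Gamma0 N) 2) 1 = ((lam t : ℤ) : ℂ) := by
  have := intLattice.moduleFinite N
  have := intLattice.moduleFree N
  obtain ⟨f, hf⟩ := s16perf_abstract (heckeLatticeAlgebra N S) (fun s t => mul_comm s t)
    (s16perfCoeff N 1) (fun n : ℕ => s16perfCoeff N (n + 1))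
    (fun n => by
      obtain ⟨t, ht⟩ := hD1 (n + 1) (Nat.le_add_left 1 n)
      refine ⟨t, fun f => ?_⟩
      apply Int.cast_injective (α := ℂ)
      rw [← s16perfCoeff_spec, ← s16perfCoeff_spec]
      exact ht f)
    (s16perf_eq_zero N)
    (fun m g hm h => s16perf_saturated N m g hm h)
    lam.toIntLinearMap
  refine ⟨f, fun t => ?_⟩
  rw [s16perfCoeff_spec, hf t]
  rfl

end Fermat.Agent.S16
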